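import Fermat.Agent.Lib.Cheb.Spec
import Fermat.Agent.Lib.Cheb.H761.PrimeSum

/-!
# CYC piece DEG: twisted prime-ideal sums versus twisted sums over rational primes

For a Dirichlet character `χ` mod `m` and a number field `F`,
`∑_𝔭 χ(N𝔭) N𝔭^(-s) - ∑_p χ(p) c_F(p) p^(-s)` is bounded on `(1, 2]` (it is the sum over the primes
of degree `≥ 2`, bounded by `highBound F`).  This is `TwistedPrimeSumStatement` of the CYC skeleton
of helper221 (`coord/CHEB-CYC.md`), here even without the hypothesis `Spec.PrimeSumStatement`.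
-/

set_option autoImplicit false
set_option linter.unusedSectionVars false
set_option linter.unusedVariables false

namespace Fermat.Agent.Lib.Cheb.H761

open IsDedekindDomain Filter Topology NumberField Ideal

noncomputable section TwistedPrimeSum

variable (F : Type) [Field F] [NumberField F]

/-- The twisted term `χ(N I) N(I)^(-s)`. -/
def twTerm {m : ℕ} (χ : DirichletCharacter ℂ m) (s : ℝ) (I : Ideal (𝓞 F)) : ℂ :=
  χ ((absNorm I : ℕ) : ZMod m) * (((absNorm I : ℝ) ^ (-s) : ℝ) : ℂ)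

lemma norm_twTerm_le {m : ℕ} (χ : DirichletCharacter ℂ m) (s : ℝ) (I : Ideal (𝓞 F)) :
    ‖twTerm F χ s I‖ ≤ normPow F s I := by
  unfold twTerm normPow
  rw [norm_mul, Complex.norm_real, Real.norm_of_nonneg (Real.rpow_nonneg (Nat.cast_nonneg _) _)]
  calc ‖χ ((absNorm I : ℕ) : ZMod m)‖ * (absNorm I : ℝ) ^ (-s)
      ≤ 1 * (absNorm I : ℝ) ^ (-s) :=
        mul_le_mul_of_nonneg_right (DirichletCharacter.norm_le_one χ _)
          (Real.rpow_nonneg (Nat.cast_nonneg _) _)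
    _ = (absNorm I : ℝ) ^ (-s) := one_mul _

lemma summable_twTerm_primes {m : ℕ} (χ : DirichletCharacter ℂ m) {s : ℝ} (hs : 1 < s) :
    Summable (fun 𝔭 : HeightOneSpectrum (𝓞 F) => twTerm F χ s 𝔭.asIdeal) :=
  Summable.of_norm_bounded (summable_primeSum F hs) fun 𝔭 => norm_twTerm_le F χ s _

/-- Summability of `∑_p c_F(p) p^(-s)`. -/
theorem summable_primeCount_mul {s : ℝ} (hs : 1 < s) :
    Summable (fun p : Nat.Primes => (Spec.primeCount F p : ℝ) * ((p : ℕ) : ℝ) ^ (-s)) := by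
  have hsum : Summable (fun 𝔭 : lowPrimes F => normPow F s 𝔭.1.asIdeal) :=
    (summable_primeSum F hs).subtype _
  have hsum' : Summable (fun y : Σ p : Nat.Primes, {𝔭 : lowPrimes F // lowNorm F 𝔭 = p} =>
      normPow F s y.2.1.1.asIdeal) :=
    ((Equiv.sigmaFiberEquiv (lowNorm F)).summable_iff
      (f := fun 𝔭 : lowPrimes F => normPow F s 𝔭.1.asIdeal)).mpr hsum
  have h := hsum'.sigma
  refine h.congr fun p => ?_
  exact tsum_fibre F s p

lemma tsum_fibre_twTerm {m : ℕ} (χ : DirichletCharacter ℂ m) (s : ℝ) (p : Nat.Primes) :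
    ∑' x : {𝔭 : lowPrimes F // lowNorm F 𝔭 = p}, twTerm F χ s x.1.1.asIdeal =
      χ (((p : ℕ) : ℕ) : ZMod m) *
        (((Spec.primeCount F p : ℝ) * ((p : ℕ) : ℝ) ^ (-s) : ℝ) : ℂ) := by
  have := finite_fibre F p
  have : Fintype {𝔭 : lowPrimes F // lowNorm F 𝔭 = p} := Fintype.ofFinite _
  rw [tsum_fintype]
  have h : ∀ x : {𝔭 : lowPrimes F // lowNorm F 𝔭 = p},
      twTerm F χ s x.1.1.asIdeal =
        χ (((p : ℕ) : ℕ) : ZMod m) * ((((p : ℕ) : ℝ) ^ (-s) : ℝ) : ℂ) := by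
    intro x
    have := congrArg Subtype.val x.2
    simp only [lowNorm] at this
    simp only [twTerm, this]
  simp only [h, Finset.sum_const, Finset.card_univ, nsmul_eq_mul, ← card_fibre F p,
    Nat.card_eq_fintype_card]
  push_cast
  ring

/-- The twisted sum over the primes of prime norm, indexed by the rational primes. -/
theorem tsum_lowPrimes_twTerm {m : ℕ} (χ : DirichletCharacter ℂ m) {s : ℝ} (hs : 1 < s) :
    ∑' 𝔭 : lowPrimes F, twTerm F χ s 𝔭.1.asIdeal =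
      ∑' p : Nat.Primes, χ (((p : ℕ) : ℕ) : ZMod m) *
        (((Spec.primeCount F p : ℝ) * ((p : ℕ) : ℝ) ^ (-s) : ℝ) : ℂ) := by
  have hsum : Summable (fun 𝔭 : lowPrimes F => twTerm F χ s 𝔭.1.asIdeal) :=
    (summable_twTerm_primes F χ hs).subtype _
  have hsum' : Summable (fun y : Σ p : Nat.Primes, {𝔭 : lowPrimes F // lowNorm F 𝔭 = p} =>
      twTerm F χ s y.2.1.1.asIdeal) :=
    ((Equiv.sigmaFiberEquiv (lowNorm F)).summable_iff
      (f := fun 𝔭 : lowPrimes F => twTerm F χ s 𝔭.1.asIdeal)).mpr hsum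
  calc ∑' 𝔭 : lowPrimes F, twTerm F χ s 𝔭.1.asIdeal
      = ∑' y : Σ p : Nat.Primes, {𝔭 : lowPrimes F // lowNorm F 𝔭 = p},
          twTerm F χ s y.2.1.1.asIdeal :=
        ((Equiv.sigmaFiberEquiv (lowNorm F)).tsum_eq
          (fun 𝔭 : lowPrimes F => twTerm F χ s 𝔭.1.asIdeal)).symm
    _ = ∑' p : Nat.Primes, ∑' x : {𝔭 : lowPrimes F // lowNorm F 𝔭 = p},
          twTerm F χ s x.1.1.asIdeal := hsum'.tsum_sigma
    _ = _ := tsum_congr fun p => tsum_fibre_twTerm F χ s p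

/-- The twisted sum over all primes minus the twisted sum over rational primes is the twisted sum
over the primes of degree `≥ 2`. -/
theorem tsum_twTerm_sub {m : ℕ} (χ : DirichletCharacter ℂ m) {s : ℝ} (hs : 1 < s) :
    (∑' 𝔭 : HeightOneSpectrum (𝓞 F), twTerm F χ s 𝔭.asIdeal) -
      ∑' p : Nat.Primes, χ (((p : ℕ) : ℕ) : ZMod m) *
        (((Spec.primeCount F p : ℝ) * ((p : ℕ) : ℝ) ^ (-s) : ℝ) : ℂ) =
      ∑' 𝔭 : highPrimes F, twTerm F χ s 𝔭.1.asIdeal := by
  have hsum := summable_twTerm_primes F χ hs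
  have hc : highPrimes F = (lowPrimes F)ᶜ := rfl
  have hsplit := (hsum.subtype (lowPrimes F)).tsum_add_tsum_compl (hsum.subtype (lowPrimes F)ᶜ)
  rw [← tsum_lowPrimes_twTerm F χ hs, hc, ← hsplit]
  exact add_sub_cancel_left _ _

/-- **DEG**, strong form: the bound is `highBound F`, for all `s > 1`. -/
theorem norm_tsum_twTerm_sub_le {m : ℕ} (χ : DirichletCharacter ℂ m) {s : ℝ} (hs : 1 < s) :
    ‖(∑' 𝔭 : HeightOneSpectrum (𝓞 F), χ ((absNorm 𝔭.asIdeal : ℕ) : ZMod m) *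
          (((absNorm 𝔭.asIdeal : ℝ) ^ (-s) : ℝ) : ℂ)) -
        ∑' p : Nat.Primes, χ (((p : ℕ) : ℕ) : ZMod m) *
          (((Spec.primeCount F p : ℝ) * ((p : ℕ) : ℝ) ^ (-s) : ℝ) : ℂ)‖ ≤ highBound F := by
  have h := tsum_twTerm_sub F χ hs
  simp only [twTerm] at h
  rw [h]
  have hsumh : Summable (fun 𝔭 : highPrimes F => normPow F s 𝔭.1.asIdeal) :=
    (summable_primeSum F hs).subtype _
  refine le_trans ?_ (tsum_highPrimes_le F hs)
  exact tsum_of_norm_bounded hsumh.hasSum fun 𝔭 => norm_twTerm_le F χ s _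

/-- **DEG** in the exact shape of `H221.TwistedPrimeSumStatement` (skeleton of helper221). -/
theorem twistedPrimeSum_statement :
    Spec.PrimeSumStatement →
    ∀ (F : Type) [Field F] [NumberField F] (m : ℕ) [NeZero m] (χ : DirichletCharacter ℂ m),
      ∃ C : ℝ, ∀ s : ℝ, 1 < s → s ≤ 2 →
        Summable (fun p : Nat.Primes => (Spec.primeCount F p : ℝ) * (p : ℝ) ^ (-s)) ∧
        ‖(∑' 𝔭 : HeightOneSpectrum (𝓞 F), χ (Ideal.absNorm 𝔭.asIdeal : ZMod m) *
            (((Ideal.absNorm 𝔭.asIdeal : ℝ) ^ (-s) : ℝ) : ℂ)) -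
          ∑' p : Nat.Primes, χ ((p : ℕ) : ZMod m) *
            (((Spec.primeCount F p : ℝ) * (p : ℝ) ^ (-s) : ℝ) : ℂ)‖ ≤ C := by
  intro _ F _ _ m _ χ
  exact ⟨highBound F, fun s hs1 _ =>
    ⟨summable_primeCount_mul F hs1, norm_tsum_twTerm_sub_le F χ hs1⟩⟩

end TwistedPrimeSum

end Fermat.Agent.Lib.Cheb.H761
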