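import Fermat.Agent.Lib.Cheb.Spec
import Fermat.Agent.Lib.Cheb.H761.TwistedPrimeSum

/-!
# CYC piece EP: Euler product of the norm-twisted `L`-series of a number field

For a Dirichlet character `χ` mod `m`, a number field `F` and real `s > 1`:

  `∏_𝔭 (1 - χ(N𝔭) N𝔭^(-s))⁻¹ = LSeries (n ↦ χ n * idealCount F n) s`

(`HasProd` over `HeightOneSpectrum (𝓞 F)`).  This is `EulerProductStatement` of the CYC skeleton
of helper221 (`coord/CHEB-CYC.md`).
-/

set_option autoImplicit false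
set_option linter.unusedSectionVars false
set_option linter.unusedVariables false

namespace Fermat.Agent.Lib.Cheb.H761

open IsDedekindDomain Filter Topology NumberField Ideal

noncomputable section TwistedEuler

variable (F : Type) [Field F] [NumberField F]

lemma twTerm_mul {m : ℕ} (χ : DirichletCharacter ℂ m) (s : ℝ) (I J : Ideal (𝓞 F)) :
    twTerm F χ s (I * J) = twTerm F χ s I * twTerm F χ s J := by
  simp only [twTerm, map_mul, Nat.cast_mul]
  rw [Real.mul_rpow (Nat.cast_nonneg _) (Nat.cast_nonneg _)]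
  push_cast
  ring

lemma twTerm_top {m : ℕ} (χ : DirichletCharacter ℂ m) (s : ℝ) : twTerm F χ s ⊤ = 1 := by
  simp [twTerm]

lemma twTerm_bot {m : ℕ} (χ : DirichletCharacter ℂ m) {s : ℝ} (hs : s ≠ 0) :
    twTerm F χ s ⊥ = 0 := by
  simp [twTerm, Real.zero_rpow (neg_ne_zero.mpr hs)]

theorem summable_twTerm {m : ℕ} (χ : DirichletCharacter ℂ m) {s : ℝ} (hs : 1 < s) :
    Summable (twTerm F χ s) :=
  Summable.of_norm_bounded (summable_normPow F hs) (norm_twTerm_le F χ s)

/-- the ideal-indexed twisted `L`-series -/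
def twL {m : ℕ} (χ : DirichletCharacter ℂ m) (s : ℝ) : ℂ := ∑' I : Ideal (𝓞 F), twTerm F χ s I

/-- the sum over nonzero ideals is `twL` -/
lemma tsum_sieveSet_empty_twTerm {m : ℕ} (χ : DirichletCharacter ℂ m) {s : ℝ} (hs : 1 < s) :
    ∑' I : sieveSet (∅ : Set (HeightOneSpectrum (𝓞 F))), twTerm F χ s I = twL F χ s := by
  have hsum := summable_twTerm F χ hs
  have h : sieveSet (∅ : Set (HeightOneSpectrum (𝓞 F))) = ({⊥} : Set (Ideal (𝓞 F)))ᶜ := by
    ext I
    simp [mem_sieveSet_empty]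
  rw [tsum_congr_set_coe _ h, twL,
    ← (hsum.subtype _).tsum_add_tsum_compl (s := ({⊥} : Set (Ideal (𝓞 F)))) (hsum.subtype _),
    tsum_singleton (⊥ : Ideal (𝓞 F)) (twTerm F χ s), twTerm_bot F χ (by linarith), zero_add]

/-- The sum of the twisted terms over the ideals of norm `n`. -/
lemma tsum_fiber_twTerm {m : ℕ} (χ : DirichletCharacter ℂ m) (s : ℝ) (n : ℕ) :
    ∑' I : {I : Ideal (𝓞 F) // absNorm I = n}, twTerm F χ s I.1 =
      χ ((n : ℕ) : ZMod m) * ((Spec.idealCount F n : ℂ) * (((n : ℝ) ^ (-s) : ℝ) : ℂ)) := by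
  have hfin : Finite {I : Ideal (𝓞 F) // absNorm I = n} :=
    (Ideal.finite_setOfPred_absNorm_eq n).to_subtype
  have : Fintype {I : Ideal (𝓞 F) // absNorm I = n} := Fintype.ofFinite _
  rw [tsum_fintype]
  have h : ∀ I : {I : Ideal (𝓞 F) // absNorm I = n},
      twTerm F χ s I.1 = χ ((n : ℕ) : ZMod m) * (((n : ℝ) ^ (-s) : ℝ) : ℂ) := by
    intro I
    simp only [twTerm, I.2]
  simp only [h, Finset.sum_const, Finset.card_univ, nsmul_eq_mul, Spec.idealCount,
    Nat.card_eq_fintype_card]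
  ring

/-- `twL` as a sum over the norms. -/
lemma twL_eq_tsum_nat {m : ℕ} (χ : DirichletCharacter ℂ m) {s : ℝ} (hs : 1 < s) :
    twL F χ s = ∑' n : ℕ, χ ((n : ℕ) : ZMod m) *
      ((Spec.idealCount F n : ℂ) * (((n : ℝ) ^ (-s) : ℝ) : ℂ)) := by
  have hsum := summable_twTerm F χ hs
  have hsum' : Summable (fun x : Σ n : ℕ, {I : Ideal (𝓞 F) // absNorm I = n} =>
      twTerm F χ s x.2.1) :=
    ((Equiv.sigmaFiberEquiv (fun I : Ideal (𝓞 F) => absNorm I)).summable_iff
      (f := twTerm F χ s)).mpr hsum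
  calc twL F χ s
      = ∑' x : Σ n : ℕ, {I : Ideal (𝓞 F) // absNorm I = n}, twTerm F χ s x.2.1 :=
        ((Equiv.sigmaFiberEquiv (fun I : Ideal (𝓞 F) => absNorm I)).tsum_eq
          (twTerm F χ s)).symm
    _ = ∑' n : ℕ, ∑' I : {I : Ideal (𝓞 F) // absNorm I = n}, twTerm F χ s I.1 :=
        hsum'.tsum_sigma
    _ = _ := tsum_congr fun n => tsum_fiber_twTerm F χ s n

/-- The `LSeries` of `n ↦ χ n * idealCount F n` at a real `s > 1` is the ideal-indexed series. -/
theorem lseries_eq_twL {m : ℕ} (χ : DirichletCharacter ℂ m) {s : ℝ} (hs : 1 < s) :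
    LSeries (fun n => χ (n : ZMod m) * (Spec.idealCount F n : ℂ)) (s : ℂ) = twL F χ s := by
  rw [twL_eq_tsum_nat F χ hs, LSeries]
  refine tsum_congr fun n => ?_
  rcases eq_or_ne n 0 with rfl | hn
  · have : (0 : ℝ) ^ (-s) = 0 := Real.zero_rpow (by linarith)
    simp [this]
  · rw [LSeries.term_of_ne_zero hn, Complex.ofReal_cpow (Nat.cast_nonneg n), Complex.ofReal_neg,
      Complex.cpow_neg]
    simp only [Complex.ofReal_natCast]
    rw [div_eq_mul_inv]
    ring

/-- The ideal-indexed twisted `L`-series does not vanish for `s > 1`. -/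
theorem twL_ne_zero {m : ℕ} (χ : DirichletCharacter ℂ m) {s : ℝ} (hs : 1 < s) :
    twL F χ s ≠ 0 := by
  rw [← tsum_sieveSet_empty_twTerm F χ hs]
  exact tsum_sieve_empty_ne_zero (summable_twTerm F χ hs) (twTerm_mul F χ s) (twTerm_top F χ s)

/-- **Euler product**, in terms of `twTerm` and `twL`. -/
theorem hasProd_twL {m : ℕ} (χ : DirichletCharacter ℂ m) {s : ℝ} (hs : 1 < s) :
    HasProd (fun 𝔭 : HeightOneSpectrum (𝓞 F) => (1 - twTerm F χ s 𝔭.asIdeal)⁻¹) (twL F χ s) := by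
  have h := hasProd_one_sub (summable_twTerm F χ hs) (twTerm_mul F χ s) (twTerm_top F χ s)
  rw [tsum_sieveSet_empty_twTerm F χ hs] at h
  have h2 := h.inv₀ (inv_ne_zero (twL_ne_zero F χ hs))
  rwa [inv_inv] at h2

/-- **EP** in the exact shape of `H221.EulerProductStatement` (skeleton of helper221). -/
theorem eulerProduct_statement :
    ∀ (F : Type) [Field F] [NumberField F] (m : ℕ) [NeZero m] (χ : DirichletCharacter ℂ m)
      (s : ℝ), 1 < s →
      HasProd (fun 𝔭 : HeightOneSpectrum (𝓞 F) =>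
        (1 - χ (Ideal.absNorm 𝔭.asIdeal : ZMod m) *
          (((Ideal.absNorm 𝔭.asIdeal : ℝ) ^ (-s) : ℝ) : ℂ))⁻¹)
        (LSeries (fun n => χ (n : ZMod m) * (Spec.idealCount F n : ℂ)) (s : ℂ)) := by
  intro F _ _ m _ χ s hs
  rw [lseries_eq_twL F χ hs]
  exact hasProd_twL F χ hs

end TwistedEuler

end Fermat.Agent.Lib.Cheb.H761
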